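import Mathlib

/-!
# Full residue degree ⇒ unique extension of a valuation subring (S18, block D, generic leaf)

`L / F` a finite field extension, `O'` a valuation subring of `L`, `O = O' ∩ F`.
A finite family `b : ι → L` is *residually independent* for `O'` over `F` if every combination
`∑ a i • b i` with coefficients `a i ∈ O`, at least one of them a unit, is a unit of `O'`
(i.e. the residue classes of the `b i` are linearly independent over the residue field of `O`).

If such a family has `Fintype.card ι = [L : F]` then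

* `b` is an `F`-basis of `L` and `v (∑ a i • b i) = max v (a i)`
  (`exists_valuation_sum_eq`, `valuation_sum_le_iff`, `valuation_sum_lt_iff`, `exists_repr`);
  in particular `O' = ⊕ O • b i` (`mem_iff`) and `e = 1` (`exists_valuation_eq_algebraMap`);
* `O'` is the **unique** valuation subring of `L` with the same trace on `F`
  (`eq_of_comap_eq`), which is exactly the hypothesis `huniq` of
  `Fermat.Agent.S18.KummerDescent.mem_range_of_pow_eq`.

No discreteness, no rank assumption, no residue-field algebra structure is used.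
A criterion in terms of reduction maps (`resIndep_of_linearIndependent`) is included.
-/

namespace Fermat.Agent.S18.ValExt.UniqueOfResidue

open scoped BigOperators

variable {F L : Type*} [Field F] [Field L] [Algebra F L]

/-- Residual independence of a finite family over `O' ∩ F`, phrased without residue fields. -/
def ResIndep (O' : ValuationSubring L) {ι : Type*} [Fintype ι] (b : ι → L) : Prop :=
  ∀ a : ι → F, (∀ i, O'.valuation (algebraMap F L (a i)) ≤ 1) →
    (∃ i, O'.valuation (algebraMap F L (a i)) = 1) → O'.valuation (∑ i, a i • b i) = 1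

section Basic

variable {O' : ValuationSubring L} {ι : Type*} [Fintype ι] {b : ι → L}

theorem ResIndep.valuation_eq_one (hb : ResIndep (F := F) O' b) (i : ι) :
    O'.valuation (b i) = 1 := by
  classical
  have h := hb (fun j => if j = i then 1 else 0)
    (fun j => by
      by_cases hj : j = i
      · simp [hj]
      · simp [hj])
    ⟨i, by simp⟩
  have e : (∑ j, (if j = i then (1 : F) else 0) • b j) = b i := by
    rw [Finset.sum_eq_single i]
    · simp
    · intro j _ hj
      simp [hj]
    · intro hi
      exact absurd (Finset.mem_univ i) hi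
  rwa [e] at h

theorem ResIndep.mem (hb : ResIndep (F := F) O' b) (i : ι) : b i ∈ O' := by
  rw [← ValuationSubring.valuation_le_one_iff, hb.valuation_eq_one]

theorem ResIndep.ne_zero (hb : ResIndep (F := F) O' b) (i : ι) : b i ≠ 0 := by
  intro h
  have := hb.valuation_eq_one i
  rw [h, map_zero] at this
  exact zero_ne_one this

/-- The valuation of a combination is the maximum of the valuations of its coefficients. -/
theorem ResIndep.exists_valuation_sum_eq [Nonempty ι] (hb : ResIndep (F := F) O' b)
    (a : ι → F) :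
    ∃ i₀, (∀ i, O'.valuation (algebraMap F L (a i)) ≤ O'.valuation (algebraMap F L (a i₀))) ∧
      O'.valuation (∑ i, a i • b i) = O'.valuation (algebraMap F L (a i₀)) := by
  obtain ⟨i₀, -, hmax⟩ := Finset.exists_max_image Finset.univ
    (fun i => O'.valuation (algebraMap F L (a i))) Finset.univ_nonempty
  refine ⟨i₀, fun i => hmax i (Finset.mem_univ i), ?_⟩
  by_cases h0 : a i₀ = 0
  · have hall : ∀ i, a i = 0 := by
      intro i
      have := hmax i (Finset.mem_univ i)
      simp only [h0, map_zero, le_zero_iff] at this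
      have h2 : algebraMap F L (a i) = 0 := (O'.valuation).zero_iff.mp this
      exact (map_eq_zero_iff _ (algebraMap F L).injective).mp h2
    simp [hall]
  · have hne : algebraMap F L (a i₀) ≠ 0 := by
      rwa [Ne, map_eq_zero_iff _ (algebraMap F L).injective]
    have hvne : O'.valuation (algebraMap F L (a i₀)) ≠ 0 := by
      rwa [Ne, (O'.valuation).zero_iff]
    have h1 := hb (fun i => a i / a i₀)
      (fun i => by
        rw [map_div₀, map_div₀]
        exact div_le_one_of_le₀ (hmax i (Finset.mem_univ i)) zero_le)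
      ⟨i₀, by rw [div_self h0, map_one, map_one]⟩
    have e : (∑ i, (a i / a i₀) • b i) = (algebraMap F L (a i₀))⁻¹ * ∑ i, a i • b i := by
      rw [Finset.mul_sum]
      refine Finset.sum_congr rfl fun i _ => ?_
      rw [Algebra.smul_def, Algebra.smul_def, map_div₀]
      field_simp
    rw [e, map_mul, map_inv₀] at h1
    rw [← mul_one (O'.valuation (algebraMap F L (a i₀))), ← h1, ← mul_assoc,
      mul_inv_cancel₀ hvne, one_mul]

theorem ResIndep.valuation_sum_le_iff (hb : ResIndep (F := F) O' b) (a : ι → F)
    (c : O'.ValueGroup) :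
    O'.valuation (∑ i, a i • b i) ≤ c ↔ ∀ i, O'.valuation (algebraMap F L (a i)) ≤ c := by
  constructor
  · intro h i
    have : Nonempty ι := ⟨i⟩
    obtain ⟨i₀, hmax, heq⟩ := hb.exists_valuation_sum_eq a
    exact (hmax i).trans (heq ▸ h)
  · intro h
    refine (O'.valuation).map_sum_le fun i _ => ?_
    rw [Algebra.smul_def, map_mul, hb.valuation_eq_one, mul_one]
    exact h i

theorem ResIndep.valuation_sum_lt_iff [Nonempty ι] (hb : ResIndep (F := F) O' b) (a : ι → F)
    (c : O'.ValueGroup) :
    O'.valuation (∑ i, a i • b i) < c ↔ ∀ i, O'.valuation (algebraMap F L (a i)) < c := by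
  obtain ⟨i₀, hmax, heq⟩ := hb.exists_valuation_sum_eq a
  constructor
  · intro h i
    exact lt_of_le_of_lt (hmax i) (heq ▸ h)
  · intro h
    rw [heq]
    exact h i₀

/-- membership in `O'` is read off coefficientwise: `O' = ⊕ (O' ∩ F) • b i`. -/
theorem ResIndep.mem_iff (hb : ResIndep (F := F) O' b) (a : ι → F) :
    (∑ i, a i • b i) ∈ O' ↔ ∀ i, algebraMap F L (a i) ∈ O' := by
  rw [← ValuationSubring.valuation_le_one_iff, hb.valuation_sum_le_iff]
  exact forall_congr' fun i => ValuationSubring.valuation_le_one_iff _ _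

theorem ResIndep.linearIndependent (hb : ResIndep (F := F) O' b) : LinearIndependent F b := by
  rw [Fintype.linearIndependent_iff]
  intro a ha i
  have h := (hb.valuation_sum_le_iff a 0).mp (by rw [ha, map_zero]) i
  rw [le_zero_iff, (O'.valuation).zero_iff] at h
  exact (map_eq_zero_iff _ (algebraMap F L).injective).mp h

variable [FiniteDimensional F L]

/-- with `card ι = [L : F]`, every element of `L` is a combination of the `b i`. -/
theorem ResIndep.exists_repr (hb : ResIndep (F := F) O' b)
    (hcard : Fintype.card ι = Module.finrank F L) (x : L) :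
    ∃ a : ι → F, ∑ i, a i • b i = x := by
  have hspan := hb.linearIndependent.span_eq_top_of_card_eq_finrank' hcard
  have hx : x ∈ Submodule.span F (Set.range b) := by
    rw [hspan]
    exact Submodule.mem_top
  exact (Submodule.mem_span_range_iff_exists_fun F).mp hx

theorem ResIndep.nonempty (_hb : ResIndep (F := F) O' b)
    (hcard : Fintype.card ι = Module.finrank F L) : Nonempty ι := by
  have hpos : 0 < Module.finrank F L := Module.finrank_pos
  rw [← hcard] at hpos
  exact Fintype.card_pos_iff.mp hpos

/-- elements of `O'` have coefficients in `O' ∩ F`. -/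
theorem ResIndep.exists_repr_of_mem (hb : ResIndep (F := F) O' b)
    (hcard : Fintype.card ι = Module.finrank F L) {x : L} (hx : x ∈ O') :
    ∃ a : ι → F, (∀ i, algebraMap F L (a i) ∈ O') ∧ ∑ i, a i • b i = x := by
  obtain ⟨a, rfl⟩ := hb.exists_repr hcard x
  exact ⟨a, (hb.mem_iff a).mp hx, rfl⟩

/-- elements of the maximal ideal of `O'` have coefficients in the maximal ideal of `O' ∩ F`. -/
theorem ResIndep.exists_repr_of_lt_one (hb : ResIndep (F := F) O' b)
    (hcard : Fintype.card ι = Module.finrank F L) {x : L} (hx : O'.valuation x < 1) :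
    ∃ a : ι → F, (∀ i, O'.valuation (algebraMap F L (a i)) < 1) ∧ ∑ i, a i • b i = x := by
  have := hb.nonempty hcard
  obtain ⟨a, rfl⟩ := hb.exists_repr hcard x
  exact ⟨a, (hb.valuation_sum_lt_iff a 1).mp hx, rfl⟩

/-- `e = 1`: the value group of `O'` is that of `O' ∩ F`. -/
theorem ResIndep.exists_valuation_eq_algebraMap (hb : ResIndep (F := F) O' b)
    (hcard : Fintype.card ι = Module.finrank F L) (x : L) :
    ∃ c : F, O'.valuation x = O'.valuation (algebraMap F L c) := by
  have := hb.nonempty hcard
  obtain ⟨a, rfl⟩ := hb.exists_repr hcard x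
  obtain ⟨i₀, -, heq⟩ := hb.exists_valuation_sum_eq a
  exact ⟨a i₀, heq⟩

/-- `e = 1`, multiplicative form: every nonzero `x` is (element of `F`) · (unit of `O'`). -/
theorem ResIndep.exists_mul_unit (hb : ResIndep (F := F) O' b)
    (hcard : Fintype.card ι = Module.finrank F L) {x : L} (hx : x ≠ 0) :
    ∃ (c : F) (u : L), c ≠ 0 ∧ O'.valuation u = 1 ∧ x = algebraMap F L c * u := by
  obtain ⟨c, hc⟩ := hb.exists_valuation_eq_algebraMap hcard x
  have hvx : O'.valuation x ≠ 0 := by rwa [Ne, (O'.valuation).zero_iff]
  have hc0 : algebraMap F L c ≠ 0 := by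
    intro h
    rw [h, map_zero] at hc
    exact hvx hc
  have hcF : c ≠ 0 := fun h => hc0 (by rw [h, map_zero])
  refine ⟨c, (algebraMap F L c)⁻¹ * x, hcF, ?_, ?_⟩
  · rw [map_mul, map_inv₀, hc, inv_mul_cancel₀]
    rwa [← hc]
  · rw [← mul_assoc, mul_inv_cancel₀ hc0, one_mul]

/-- **Uniqueness of the extension.**  A valuation subring `O'` of `L` having a residually
independent family of cardinality `[L : F]` is the only valuation subring of `L` with trace
`O' ∩ F` on `F`. -/
theorem ResIndep.eq_of_comap_eq (hb : ResIndep (F := F) O' b)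
    (hcard : Fintype.card ι = Module.finrank F L) (O'' : ValuationSubring L)
    (h : O''.comap (algebraMap F L) = O'.comap (algebraMap F L)) : O'' = O' := by
  have := hb.nonempty hcard
  have hmem : ∀ c : F, algebraMap F L c ∈ O'' ↔ algebraMap F L c ∈ O' := by
    intro c
    rw [← ValuationSubring.mem_comap, ← ValuationSubring.mem_comap, h]
  -- Step A : `O' ≤ O''`
  have hA : ∀ x : L, x ∈ O' → x ∈ O'' := by
    intro x hx
    let N : Submodule O'' L := Submodule.span O'' (Set.range b)
    have hbN : ∀ i, b i ∈ N := fun i => Submodule.subset_span ⟨i, rfl⟩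
    have hN : N ≠ ⊥ := by
      intro hbot
      obtain ⟨i⟩ := ‹Nonempty ι›
      have := hbN i
      rw [hbot, Submodule.mem_bot] at this
      exact hb.ne_zero i this
    have hN' : N.FG := Submodule.fg_span (Set.finite_range b)
    have hstab : ∀ n ∈ N, x • n ∈ N := by
      intro n hn
      induction hn using Submodule.span_induction with
      | mem y hy =>
        obtain ⟨j, rfl⟩ := hy
        have hxb : x * b j ∈ O' := O'.mul_mem _ _ hx (hb.mem j)
        obtain ⟨c, hc, hsum⟩ := hb.exists_repr_of_mem hcard hxb
        rw [smul_eq_mul, ← hsum]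
        refine Submodule.sum_mem _ fun k _ => ?_
        have hck : algebraMap F L (c k) ∈ O'' := (hmem (c k)).mpr (hc k)
        have e : c k • b k = (⟨algebraMap F L (c k), hck⟩ : O'') • b k := by
          rw [Algebra.smul_def]
          rfl
        rw [e]
        exact Submodule.smul_mem _ _ (hbN k)
      | zero => rw [smul_zero]; exact Submodule.zero_mem _
      | add y z _ _ hy hz => rw [smul_add]; exact Submodule.add_mem _ hy hz
      | smul r y _ hy =>
        rw [smul_comm]
        exact Submodule.smul_mem _ _ hy
    have hint : IsIntegral O'' x := isIntegral_of_smul_mem_submodule N hN hN' x hstab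
    obtain ⟨y, hy⟩ := IsIntegrallyClosed.isIntegral_iff.mp hint
    rw [← hy]
    exact y.2
  -- the maximal ideals have the same trace on `F`
  have hlt : ∀ c : F, O'.valuation (algebraMap F L c) < 1 → O''.valuation (algebraMap F L c) < 1 := by
    intro c hc
    by_cases hc0 : c = 0
    · rw [hc0, map_zero, map_zero]; exact zero_lt_one
    have hne : algebraMap F L c ≠ 0 := by
      rwa [Ne, map_eq_zero_iff _ (algebraMap F L).injective]
    by_contra hnot
    rw [not_lt] at hnot
    have h1 : O''.valuation (algebraMap F L c⁻¹) ≤ 1 := by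
      rw [map_inv₀, map_inv₀]
      exact inv_le_one_of_one_le₀ hnot
    rw [ValuationSubring.valuation_le_one_iff, hmem, ← ValuationSubring.valuation_le_one_iff,
      map_inv₀, map_inv₀] at h1
    have hv0 : O'.valuation (algebraMap F L c) ≠ 0 := by rwa [Ne, (O'.valuation).zero_iff]
    have h2 : 1 ≤ O'.valuation (algebraMap F L c) := by
      have := (inv_le_one₀ (zero_lt_iff.mpr hv0)).mp h1
      exact this
    exact absurd hc (not_lt.mpr h2)
  -- Step B : `O'' ≤ O'`
  have hB : ∀ x : L, x ∈ O'' → x ∈ O' := by
    intro x hx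
    by_contra hx'
    have hx0 : x ≠ 0 := fun h0 => hx' (h0 ▸ O'.zero_mem)
    have hgt : 1 < O'.valuation x := by
      rw [← not_le, ValuationSubring.valuation_le_one_iff]
      exact hx'
    have hinv : O'.valuation x⁻¹ < 1 := by
      rw [map_inv₀]
      exact inv_lt_one_of_one_lt₀ hgt
    obtain ⟨a, ha, hsum⟩ := hb.exists_repr_of_lt_one hcard hinv
    have hinv'' : O''.valuation x⁻¹ < 1 := by
      rw [← hsum]
      refine (O''.valuation).map_sum_lt one_ne_zero fun i _ => ?_
      rw [Algebra.smul_def, map_mul]
      have h1 := hlt (a i) (ha i)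
      have h2 : O''.valuation (b i) ≤ 1 :=
        (ValuationSubring.valuation_le_one_iff _ _).mpr (hA _ (hb.mem i))
      calc O''.valuation (algebraMap F L (a i)) * O''.valuation (b i)
          ≤ O''.valuation (algebraMap F L (a i)) * 1 := mul_le_mul_right h2 _
        _ = O''.valuation (algebraMap F L (a i)) := mul_one _
        _ < 1 := h1
    have hxle : O''.valuation x ≤ 1 := (ValuationSubring.valuation_le_one_iff _ _).mpr hx
    have : O''.valuation (x * x⁻¹) < 1 := by
      rw [map_mul]
      calc O''.valuation x * O''.valuation x⁻¹ ≤ 1 * O''.valuation x⁻¹ := mul_le_mul_left hxle _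
        _ = O''.valuation x⁻¹ := one_mul _
        _ < 1 := hinv''
    rw [mul_inv_cancel₀ hx0, map_one] at this
    exact lt_irrefl _ this
  exact le_antisymm (fun x hx => hB x hx) (fun x hx => hA x hx)

end Basic

section Criterion

variable {O' : ValuationSubring L} {ι : Type*} [Fintype ι] {b : ι → L}

/-- **Criterion via a reduction map.**  If `ρ' : O' →+* κ'` kills the maximal ideal of `O'` and
the images of the `b i` are independent over the image of `O' ∩ F`, the family is residually
independent. -/
theorem resIndep_of_ringHom {κ' : Type*} [Field κ'] (ρ' : O' →+* κ')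
    (hker : ∀ x : O', O'.valuation (x : L) < 1 → ρ' x = 0)
    (hbmem : ∀ i, b i ∈ O')
    (hli : ∀ (a : ι → F) (ha : ∀ i, algebraMap F L (a i) ∈ O'),
      ∑ i, ρ' ⟨algebraMap F L (a i), ha i⟩ * ρ' ⟨b i, hbmem i⟩ = 0 →
        ∀ i, ρ' ⟨algebraMap F L (a i), ha i⟩ = 0) :
    ResIndep (F := F) O' b := by
  intro a ha ⟨i₀, hi₀⟩
  have ha' : ∀ i, algebraMap F L (a i) ∈ O' := fun i =>
    (ValuationSubring.valuation_le_one_iff _ _).mp (ha i)
  have hx : (∑ i, a i • b i) ∈ O' := by
    refine Subring.sum_mem O'.toSubring fun i _ => ?_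
    rw [Algebra.smul_def]
    exact O'.mul_mem _ _ (ha' i) (hbmem i)
  have hle : O'.valuation (∑ i, a i • b i) ≤ 1 :=
    (ValuationSubring.valuation_le_one_iff _ _).mpr hx
  by_contra hne
  have hlt : O'.valuation (∑ i, a i • b i) < 1 := lt_of_le_of_ne hle hne
  have h0 := hker ⟨_, hx⟩ hlt
  have e : (⟨∑ i, a i • b i, hx⟩ : O') =
      ∑ i, (⟨algebraMap F L (a i), ha' i⟩ : O') * ⟨b i, hbmem i⟩ := by
    apply Subtype.ext
    rw [AddSubmonoidClass.coe_finsetSum]
    refine Finset.sum_congr rfl fun i _ => ?_
    rw [Algebra.smul_def]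
    rfl
  rw [e, map_sum] at h0
  simp only [map_mul] at h0
  have hz := hli a ha' h0 i₀
  -- `a i₀` is a unit of `O'`
  have hne0 : algebraMap F L (a i₀) ≠ 0 := by
    intro h
    rw [h, map_zero] at hi₀
    exact zero_ne_one hi₀
  have hinv : (algebraMap F L (a i₀))⁻¹ ∈ O' := by
    rw [← ValuationSubring.valuation_le_one_iff, map_inv₀, hi₀, inv_one]
  have hmul : (⟨algebraMap F L (a i₀), ha' i₀⟩ : O') * ⟨(algebraMap F L (a i₀))⁻¹, hinv⟩ = 1 := by
    apply Subtype.ext
    exact mul_inv_cancel₀ hne0
  have := congrArg ρ' hmul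
  rw [map_mul, hz, zero_mul, map_one] at this
  exact zero_ne_one this

/-- The same criterion with an honest residue field `κ` of `O' ∩ F` mapping to `κ'`. -/
theorem resIndep_of_linearIndependent {κ κ' : Type*} [Field κ] [Field κ'] [Algebra κ κ']
    (ρ' : O' →+* κ') (hker : ∀ x : O', O'.valuation (x : L) < 1 → ρ' x = 0)
    (ρ : F → κ)
    (hρ : ∀ (c : F) (hc : algebraMap F L c ∈ O'),
      ρ' ⟨algebraMap F L c, hc⟩ = algebraMap κ κ' (ρ c))
    (hbmem : ∀ i, b i ∈ O')
    (hli : LinearIndependent κ fun i => ρ' ⟨b i, hbmem i⟩) :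
    ResIndep (F := F) O' b := by
  refine resIndep_of_ringHom ρ' hker hbmem fun a ha hsum i => ?_
  rw [Fintype.linearIndependent_iff] at hli
  have h := hli (fun i => ρ (a i)) (by
    rw [← hsum]
    refine Finset.sum_congr rfl fun i _ => ?_
    rw [Algebra.smul_def, hρ (a i) (ha i)]) i
  rw [hρ (a i) (ha i), h, map_zero]

end Criterion

end Fermat.Agent.S18.ValExt.UniqueOfResidue
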